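import Fermat.Agent.S36.Dict.Defs
import Fermat.Agent.INJ.Inst.DescentDeg

/-!
# S36 / Dict : interface (architect: helper5)

Passage from the contract `(Z)` on characters (consumed by S36/Top) to the function field
statement `(Z_F)` (produced by the geometric part), including the auxiliary level.

* `Stmt_ZF`    : TARGET OF THE GEOMETRIC PART (levels divisible by the auxiliary level `4` / `9`).
* `Stmt_ZFall` : the same at all levels `N` with `r² ‖ N`.
* `Stmt_Z`     : the contract on characters.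
-/

set_option autoImplicit false

namespace Fermat.Agent.S36.Dict

open UpperHalfPlane CongruenceSubgroup AlgebraicCurve
open scoped MatrixGroups Manifold
open Fermat.Agent.S24 (Qbar FF funAlg iota)
open Fermat.Agent.S24.QX (qExpHom cmI)
open Fermat.Agent.ES.Mid
open Fermat.Agent.INJ.Inst (frickeEquiv frickeW)
attribute [local instance] Fermat.Agent.S24.algQbarComplex

/-! ### the three main statements -/

/-- `(Z_F)` at level `N`: a function `u ∈ U_m(N)` whose class is fixed by inertia at `r` and such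
that `U_r u` and `U_r (W u)` are `m`-th powers at level `N / r` has `u ^ c ∈ F_N ^ m`, with `c ≠ 0`
independent of `m` (and of the place `A` over `r`). -/
def Stmt_ZF_at (N r : ℕ) [NeZero N] [NeZero r] : Prop :=
  ∃ c : ℕ, c ≠ 0 ∧ ∀ A : ValuationSubring Qbar, A.LiesOverPrime r →
    ∀ ζ : Qbarˣ, IsPrimitiveRoot ζ r → ∀ m : ℕ, 0 < m → ¬ r ∣ m → ∀ u : FF N, IsDiv N m u →
      (∀ σ ∈ A.inertiaSubgroupIn ℚ, ∃ g : FF N, g ^ m = gal N σ u * u⁻¹) →
      (∃ g : FF (N / r), (g : LaurentSeries Qbar) ^ m = formalU r ζ (u : LaurentSeries Qbar)) →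
      (∃ g : FF (N / r), (g : LaurentSeries Qbar) ^ m
        = formalU r ζ ((frickeEquiv N u : FF N) : LaurentSeries Qbar)) →
      ∃ g : FF N, g ^ m = u ^ c

/-- The auxiliary level. -/
def auxLevel (r : ℕ) : ℕ := if r = 2 then 9 else 4

/-- **TARGET OF THE GEOMETRIC PART.** -/
def Stmt_ZF : Prop :=
  ∀ (N r : ℕ) [NeZero N] [NeZero r], r.Prime → N.factorization r = 2 → auxLevel r ∣ N →
    Stmt_ZF_at N r

/-- `(Z_F)` at all levels. -/
def Stmt_ZFall : Prop :=
  ∀ (N r : ℕ) [NeZero N] [NeZero r], r.Prime → N.factorization r = 2 → Stmt_ZF_at N r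

/-- **THE CONTRACT `(Z)`** (consumed by S36/Top).  "`χ` is fixed by `σ`" is expressed through `Kum`:
some (equivalently every) `u` with character `χ` has `σ u` of character `χ`. -/
def Stmt_Z : Prop :=
  ∀ (M : ℕ) [NeZero M] (r : Nat.Primes), M.factorization (r : ℕ) = 2 →
    ∃ c : ℕ, c ≠ 0 ∧ ∀ A : ValuationSubring Qbar, A.LiesOverPrime (r : ℕ) →
      ∀ (m : ℕ) [NeZero m], ¬ (r : ℕ) ∣ m → ∀ χ : Additive (Gamma0 M) →+ ZMod m, IsPE χ →
        (∀ σ ∈ A.inertiaSubgroupIn ℚ, ∃ u : FF M, Kum M m u χ ∧ Kum M m (gal M σ u) χ) →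
        tau M r (ZMod m) χ = 0 → tau M r (ZMod m) (Wchar M χ) = 0 → c • χ = 0

/-! ### formal properties of `formalU` (package FU) -/

/-- (FU1) `formalU` is multiplicative. -/
def Stmt_FU_mul : Prop :=
  ∀ (R : Type) [CommRing R] [IsDomain R] (r : ℕ) [NeZero r] (ζ : Rˣ), IsPrimitiveRoot ζ r →
    formalU r ζ (1 : LaurentSeries R) = 1 ∧
    ∀ x y : LaurentSeries R, formalU r ζ (x * y) = formalU r ζ x * formalU r ζ y

/-- (FU2) `formalU r` commutes with `q ↦ q ^ e`, `e` prime to `r`. -/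
def Stmt_FU_expand : Prop :=
  ∀ (R : Type) [CommRing R] [IsDomain R] (r e : ℕ) [NeZero r] [NeZero e] (ζ : Rˣ),
    IsPrimitiveRoot ζ r → Nat.Coprime e r → ∀ x : LaurentSeries R,
      formalU r ζ (ModularCurve.qExpand R e x) = ModularCurve.qExpand R e (formalU r ζ x)

/-- (FU3) `formalU` does not depend on `ζ` and commutes with the Galois action on coefficients. -/
def Stmt_FU_gal : Prop :=
  (∀ (R : Type) [CommRing R] [IsDomain R] (r : ℕ) [NeZero r] (ζ ζ' : Rˣ), IsPrimitiveRoot ζ r →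
    IsPrimitiveRoot ζ' r → ∀ x : LaurentSeries R, formalU r ζ x = formalU r ζ' x) ∧
  ∀ (r : ℕ) [NeZero r] (ζ : Qbarˣ), IsPrimitiveRoot ζ r → ∀ (σ : GQ) (x : LaurentSeries Qbar),
    formalU r ζ (ModularCurve.coeffMap (σ : Qbar →+* Qbar) x)
      = ModularCurve.coeffMap (σ : Qbar →+* Qbar) (formalU r ζ x)

/-! ### analytic properties (package UA) -/

/-- `(𝒰 f)(z) = ∏_{j mod r} f((z + j)/r)`. -/
noncomputable def funU (r : ℕ) [NeZero r] (f : ℍ → ℂ) : ℍ → ℂ :=
  fun z => ∏ x : ZMod r, f (ModularForm.heckeMatrix r x.val • z)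

/-- (UA) holomorphy, non-vanishing, growth and `q`-expansion of `𝒰 f`. -/
def Stmt_UA : Prop :=
  ∀ (r : ℕ) [NeZero r], r.Prime → ∀ f : ℍ → ℂ, MDiff f →
    MDiff (funU r f) ∧ (f ≠ 0 → funU r f ≠ 0) ∧ (Growth f → Growth (funU r f)) ∧
    ∀ (ζ : Qbarˣ) (x : LaurentSeries Qbar), IsPrimitiveRoot ζ r →
      Fermat.Agent.S24.QX.Rep (cmI x) f → Fermat.Agent.S24.QX.Rep (cmI (formalU r ζ x)) (funU r f)

/-- (KumU) the multiplicative `U_r`, `r ∣ N`, on `F_N` corresponds to `tau N r` on characters. -/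
def Stmt_KumU : Prop :=
  ∀ (N : ℕ) [NeZero N] (r : Nat.Primes), (r : ℕ) ∣ N → ∀ ζ : Qbarˣ, IsPrimitiveRoot ζ (r : ℕ) →
    ∀ (m : ℕ) [NeZero m] (u : FF N) (χ : Additive (Gamma0 N) →+ ZMod m), Kum N m u χ →
      ∃ v : FF N, (v : LaurentSeries Qbar) = formalU (r : ℕ) ζ (u : LaurentSeries Qbar) ∧
        Kum N m v (tau N r (ZMod m) χ)

/-- (ULevel) if `r ^ 2 ∣ N` then `U_r` maps `F_N` into `F_{N / r}`. -/
def Stmt_ULevel : Prop :=
  ∀ (N r : ℕ) [NeZero N] [NeZero r], r.Prime → r ^ 2 ∣ N → ∀ ζ : Qbarˣ, IsPrimitiveRoot ζ r →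
    ∀ u : FF N, formalU r ζ (u : LaurentSeries Qbar) ∈ ModularCurve.modularFunctionFieldBar (N / r)

/-! ### the Fricke involution (package W) -/

/-- (W0) the Fricke involution of `ℍ` intertwines `γ` and `frickeConj N γ`. -/
def Stmt_FrickeSmul : Prop :=
  ∀ (N : ℕ) [NeZero N] (γ : Gamma0 N) (z : ℍ),
    frickeW N ((γ : SL(2, ℤ)) • z) = ((frickeConj N γ : Gamma0 N) : SL(2, ℤ)) • frickeW N z

/-- (KumW) the Fricke involution on `F_N` corresponds to `Wchar` on characters. -/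
def Stmt_KumW : Prop :=
  ∀ (N m : ℕ) [NeZero N] [NeZero m] (u : FF N) (χ : Additive (Gamma0 N) →+ ZMod m),
    Kum N m u χ → Kum N m (frickeEquiv N u) (Wchar N χ)

/-- (WGal) the Fricke involution commutes with the Galois action. -/
def Stmt_FrickeGal : Prop :=
  ∀ (N : ℕ) [NeZero N] (σ : GQ) (u : FF N),
    frickeEquiv N (gal N σ u) = gal N σ (frickeEquiv N u)

/-- (WRaise) the Fricke involutions at the levels `N` and `N * e`. -/
def Stmt_FrickeRaise : Prop :=
  ∀ (N e : ℕ) [NeZero N] [NeZero e] [NeZero (N * e)] (u : FF N) (u' : FF (N * e)),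
    (u' : LaurentSeries Qbar) = (u : LaurentSeries Qbar) →
    ((frickeEquiv (N * e) u' : FF (N * e)) : LaurentSeries Qbar)
      = ModularCurve.qExpand Qbar e ((frickeEquiv N u : FF N) : LaurentSeries Qbar)

/-- (VMem) `q ↦ q ^ e` maps `F_N` into `F_{N e}`. -/
def Stmt_ExpandMem : Prop :=
  ∀ (N e : ℕ) [NeZero N] [NeZero e], ∀ x ∈ ModularCurve.modularFunctionFieldBar N,
    ModularCurve.qExpand Qbar e x ∈ ModularCurve.modularFunctionFieldBar (N * e)

/-! ### the auxiliary level and the final glue -/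

/-- (Aux) `(Z_F)` descends from level `N * e` to level `N`, `e` prime to `r`. -/
def Stmt_Aux : Prop :=
  ∀ (N e r : ℕ) [NeZero N] [NeZero e] [NeZero (N * e)] [NeZero r], r.Prime → r ∣ N →
    Nat.Coprime e r → Stmt_ZF_at (N * e) r → Stmt_ZF_at N r

end Fermat.Agent.S36.Dict
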