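import Fermat.Agent.S36.Dict.Interface
import Fermat.Agent.ES.Mid.HF1

/-!
# S36 / Dict / FU : formal properties of `formalU`
(`Stmt_FU_mul`, `Stmt_FU_expand`, `Stmt_FU_gal`)
-/

set_option autoImplicit false

namespace Fermat.Agent.S36.Dict

open Fermat.Agent.S24 (Qbar)
open Fermat.Agent.ES.Mid

/-- (FU1) -/
theorem fu_mul : Stmt_FU_mul := by
  intro R _ _ r _ ζ hζ
  refine ⟨?_, fun x y => ?_⟩
  · unfold formalU
    rw [HF1.twProd_one, HF1.compress_one]
  · unfold formalU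
    apply ModularCurve.qExpand_injective (R := R) r
    rw [map_mul, HF1.hf_expand R r ζ hζ, HF1.hf_expand R r ζ hζ, HF1.hf_expand R r ζ hζ,
      HF1.twProd_mul]

theorem FU_tw_qExpand {R : Type*} [CommRing R] (e : ℕ) [NeZero e] (ζ : Rˣ)
    (x : LaurentSeries R) :
    tw ζ (ModularCurve.qExpand R e x) = ModularCurve.qExpand R e (tw (ζ ^ e) x) := by
  ext n
  rw [tw_coeff]
  by_cases hn : (e : ℤ) ∣ n
  · obtain ⟨m, rfl⟩ := hn
    rw [ModularCurve.qExpand_coeff_mul, ModularCurve.qExpand_coeff_mul, tw_coeff, zpow_mul,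
      zpow_natCast]
  · rw [ModularCurve.qExpand_coeff_of_not_dvd e _ hn, ModularCurve.qExpand_coeff_of_not_dvd e _ hn,
      mul_zero]

theorem FU_twProd_qExpand {R : Type*} [CommRing R] (r e : ℕ) [NeZero e] (ζ : Rˣ)
    (x : LaurentSeries R) :
    twProd r ζ (ModularCurve.qExpand R e x) = ModularCurve.qExpand R e (twProd r (ζ ^ e) x) := by
  unfold twProd
  rw [map_prod]
  refine Finset.prod_congr rfl fun j _ => ?_
  rw [FU_tw_qExpand, ← pow_mul, ← pow_mul, mul_comm]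

/-- (FU2) -/
theorem fu_expand : Stmt_FU_expand := by
  intro R _ _ r e _ _ ζ hζ hcop x
  unfold formalU
  apply ModularCurve.qExpand_injective (R := R) r
  rw [HF1.hf_expand R r ζ hζ, FU_twProd_qExpand, HF1.twProd_pow_coprime r e hcop ζ hζ.pow_eq_one,
    ModularCurve.qExpand_qExpand, ModularCurve.qExpand_congr (mul_comm r e),
    ← ModularCurve.qExpand_qExpand, HF1.hf_expand R r ζ hζ]

theorem FU_twProd_indep {R : Type*} [CommRing R] [IsDomain R] (ℓ : ℕ) [NeZero ℓ] (ζ ζ' : Rˣ)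
    (hζ : IsPrimitiveRoot ζ ℓ) (hζ' : IsPrimitiveRoot ζ' ℓ) (x : LaurentSeries R) :
    twProd ℓ ζ x = twProd ℓ ζ' x := by
  have hℓ : 0 < ℓ := Nat.pos_of_ne_zero (NeZero.ne ℓ)
  have h1 : IsPrimitiveRoot (ζ : R) ℓ := IsPrimitiveRoot.coe_units_iff.2 hζ
  have h2 : (ζ' : R) ^ ℓ = 1 := by
    rw [← Units.val_pow_eq_pow_val, hζ'.pow_eq_one, Units.val_one]
  obtain ⟨a, -, ha⟩ := h1.eq_pow_of_pow_eq_one h2
  have ha' : ζ ^ a = ζ' := by
    apply Units.ext
    rw [Units.val_pow_eq_pow_val, ha]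
  have hcop : a.Coprime ℓ := by
    rw [← hζ.pow_iff_coprime hℓ, ha']
    exact hζ'
  rw [← ha', HF1.twProd_pow_coprime ℓ a hcop ζ hζ.pow_eq_one]

/-- (FU3) -/
theorem fu_gal : Stmt_FU_gal := by
  refine ⟨?_, ?_⟩
  · intro R _ _ r _ ζ ζ' hζ hζ' x
    unfold formalU
    rw [FU_twProd_indep r ζ ζ' hζ hζ']
  · intro r _ ζ hζ σ x
    unfold formalU
    rw [HF1.coeffMap_compress, HF1.coeffMap_twProd]
    congr 1
    refine FU_twProd_indep r _ _ hζ ?_ _
    rw [← IsPrimitiveRoot.coe_units_iff]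
    exact (IsPrimitiveRoot.coe_units_iff.mpr hζ).map_of_injective
      (f := (σ : Qbar →+* Qbar)) (RingHom.injective _)

end Fermat.Agent.S36.Dict
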