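import Fermat.Agent.S36.Dict.Interface
import Fermat.Agent.INJ.Inst.DescentPlaces

/-!
# S36 / Dict : the auxiliary level.  `(Z_F)` at level `N * e` implies `(Z_F)` at level `N`.
-/

set_option autoImplicit false
set_option synthInstance.maxHeartbeats 400000
set_option linter.style.haveILetI false

namespace Fermat.Agent.S36.Dict

open AlgebraicCurve IntermediateField ModularCurve
open Fermat.Agent.S24 (Qbar FF)
open Fermat.Agent.ES.Mid
open Fermat.Agent.INJ.Inst (frickeEquiv)
open Fermat.Agent.INJ.Inst.Descent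

theorem Aux_gal {N N' : ℕ} (hle : modularFunctionFieldBar N ≤ modularFunctionFieldBar N') (σ : GQ)
    (u : FF N) :
    IntermediateField.inclusion hle (gal N σ u) = gal N' σ (IntermediateField.inclusion hle u) := by
  apply Subtype.ext
  rw [coe_gal, IntermediateField.coe_inclusion, IntermediateField.coe_inclusion, coe_gal]

theorem Aux_isDiv {N N' : ℕ} (hle : modularFunctionFieldBar N ≤ modularFunctionFieldBar N') (m : ℕ)
    (u : FF N) (hu : IsDiv N m u) : IsDiv N' m (IntermediateField.inclusion hle u) := by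
  letI : Algebra (modularFunctionFieldBar N) (modularFunctionFieldBar N') :=
    (IntermediateField.inclusion hle).toRingHom.toAlgebra
  haveI : IsScalarTower Qbar (modularFunctionFieldBar N) (modularFunctionFieldBar N') :=
    IsScalarTower.of_algebraMap_eq (fun x => rfl)
  refine ⟨(map_ne_zero _).2 hu.1, fun P' => ?_⟩
  exact places_dvd (K := Qbar) (F' := modularFunctionFieldBar N') (m : ℤ) u hu.2 P'

theorem aux (h1 : Stmt_FU_expand) (h2 : Stmt_FrickeRaise) (h3 : Stmt_ExpandMem) : Stmt_Aux := by
  intro N e r _ _ _ _ hr hrN hcop ⟨c', hc', H⟩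
  have hdvd : N ∣ N * e := Dvd.intro _ rfl
  have hle := bar_le hdvd
  have hd0 : relfinrank (modularFunctionFieldBar N) (modularFunctionFieldBar (N * e)) ≠ 0 := by
    intro h0
    have := psi_mul_relfinrank hdvd
    rw [h0, mul_zero] at this
    exact (psi_pos (N * e)).ne this
  refine ⟨c' * relfinrank (modularFunctionFieldBar N) (modularFunctionFieldBar (N * e)),
    mul_ne_zero hc' hd0, ?_⟩
  intro A hA ζ hζ m hm hrm u hu hin hU hUW
  have hlev : N / r * e = N * e / r := Nat.div_mul_right_comm hrN e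
  haveI : NeZero (N / r) := ⟨by
    intro h0
    obtain ⟨s, hs⟩ := hrN
    rw [hs, Nat.mul_div_cancel_left _ hr.pos] at h0
    exact NeZero.ne N (by rw [hs, h0, mul_zero])⟩
  haveI : NeZero (N * e / r) := ⟨by rw [← hlev]; exact mul_ne_zero (NeZero.ne _) (NeZero.ne _)⟩
  have hle' : modularFunctionFieldBar (N / r) ≤ modularFunctionFieldBar (N * e / r) :=
    bar_le (by rw [← hlev]; exact Dvd.intro _ rfl)
  have hcoe : ((IntermediateField.inclusion hle u : FF (N * e)) : LaurentSeries Qbar) =
      (u : LaurentSeries Qbar) := IntermediateField.coe_inclusion hle u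
  have k1 : ∀ σ ∈ A.inertiaSubgroupIn ℚ, ∃ g : FF (N * e), g ^ m =
      gal (N * e) σ (IntermediateField.inclusion hle u) * (IntermediateField.inclusion hle u)⁻¹ := by
    intro σ hσ
    obtain ⟨g, hg⟩ := hin σ hσ
    refine ⟨IntermediateField.inclusion hle g, ?_⟩
    rw [← map_pow, hg, map_mul, map_inv₀, Aux_gal]
  have k2 : ∃ g : FF (N * e / r), (g : LaurentSeries Qbar) ^ m =
      formalU r ζ ((IntermediateField.inclusion hle u : FF (N * e)) : LaurentSeries Qbar) := by
    obtain ⟨g, hg⟩ := hU
    refine ⟨IntermediateField.inclusion hle' g, ?_⟩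
    rw [hcoe, IntermediateField.coe_inclusion, hg]
  have k3 : ∃ g : FF (N * e / r), (g : LaurentSeries Qbar) ^ m = formalU r ζ
      ((frickeEquiv (N * e) (IntermediateField.inclusion hle u) : FF (N * e)) :
        LaurentSeries Qbar) := by
    obtain ⟨g, hg⟩ := hUW
    have hmem : qExpand Qbar e (g : LaurentSeries Qbar) ∈ modularFunctionFieldBar (N * e / r) :=
      hlev ▸ h3 (N / r) e g g.2
    refine ⟨⟨_, hmem⟩, ?_⟩
    rw [h2 N e u _ hcoe, h1 Qbar r e ζ hζ hcop, ← hg, map_pow]
  obtain ⟨g', hg'⟩ := H A hA ζ hζ m hm hrm _ (Aux_isDiv hle m u hu) k1 k2 k3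
  obtain ⟨g'', hg''⟩ := exists_pow_eq_pow_relfinrank hle m (u ^ c') g' (by
    have := congrArg (Subtype.val : FF (N * e) → LaurentSeries Qbar) hg'
    rw [IntermediateField.coe_pow, IntermediateField.coe_pow, hcoe] at this
    rw [this, IntermediateField.coe_pow])
  exact ⟨g'', by rw [hg'', pow_mul]⟩

theorem zfAll (hA : Stmt_Aux) (h : Stmt_ZF) : Stmt_ZFall := by
  intro N r _ _ hr hfac
  have hcop : Nat.Coprime (auxLevel r) r := by
    unfold auxLevel
    split_ifs with h2
    · subst h2; decide
    · have : Nat.Coprime 2 r := (Nat.coprime_primes Nat.prime_two hr).2 (Ne.symm h2)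
      exact Nat.Coprime.pow_left 2 this
  have he0 : auxLevel r ≠ 0 := by
    unfold auxLevel
    split_ifs <;> norm_num
  haveI : NeZero (auxLevel r) := ⟨he0⟩
  haveI : NeZero (N * auxLevel r) := ⟨mul_ne_zero (NeZero.ne N) he0⟩
  have hrN : r ∣ N := Nat.dvd_of_factorization_pos (by rw [hfac]; norm_num)
  have hre : ¬ r ∣ auxLevel r := (Nat.Prime.coprime_iff_not_dvd hr).1 hcop.symm
  have hfac' : (N * auxLevel r).factorization r = 2 := by
    rw [Nat.factorization_mul (NeZero.ne N) he0, Finsupp.add_apply, hfac,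
      Nat.factorization_eq_zero_of_not_dvd hre]
  exact hA N (auxLevel r) r hr hrN hcop (h (N * auxLevel r) r hr hfac' (Dvd.intro_left _ rfl))

end Fermat.Agent.S36.Dict
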