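import Fermat.Agent.S36.Dict.Interface
import Fermat.Agent.ES.Mid.All

/-!
# S36 / Dict : GLUE.  `(Z_F)` at all levels implies the contract `(Z)` on characters.
-/

set_option autoImplicit false

namespace Fermat.Agent.S36.Dict

open UpperHalfPlane CongruenceSubgroup AlgebraicCurve
open scoped MatrixGroups Manifold
open Fermat.Agent.S24 (Qbar FF funAlg iota)
open Fermat.Agent.S24.QX (qExpHom cmI)
open Fermat.Agent.ES.Mid
open Fermat.Agent.INJ.Inst (frickeEquiv frickeW)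
attribute [local instance] Fermat.Agent.S24.algQbarComplex

namespace GlueZ

theorem exists_primRoot_units (r : ℕ) [NeZero r] : ∃ ζ : Qbarˣ, IsPrimitiveRoot ζ r := by
  have : NeZero ((r : ℕ) : Qbar) := ⟨by exact_mod_cast NeZero.ne r⟩
  obtain ⟨ζ, hζ⟩ := HasEnoughRootsOfUnity.exists_primitiveRoot Qbar r
  exact ⟨hζ.isUnit (NeZero.ne r) |>.unit, by
    rw [← IsPrimitiveRoot.coe_units_iff]; exact hζ⟩

theorem formalU_pow (hFU : Stmt_FU_mul) (r : ℕ) [NeZero r] (ζ : Qbarˣ) (hζ : IsPrimitiveRoot ζ r)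
    (x : LaurentSeries Qbar) (n : ℕ) : formalU r ζ (x ^ n) = formalU r ζ x ^ n := by
  obtain ⟨h1, h2⟩ := hFU Qbar r ζ hζ
  induction n with
  | zero => rw [pow_zero, pow_zero, h1]
  | succ n ih => rw [pow_succ, pow_succ, h2, ih]

theorem isDiv_pow {N m : ℕ} {u : FF N} (hu : IsDiv N m u) (n : ℕ) : IsDiv N m (u ^ n) := by
  induction n with
  | zero =>
    rw [pow_zero]
    exact ⟨one_ne_zero, fun P => by rw [Place.ord_one]; exact dvd_zero _⟩
  | succ n ih => rw [pow_succ]; exact GLUE.isDiv_mul ih hu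

/-- If `Kum M m u χ` and `tau χ = 0` then `U_r (u ^ d)` is an `m`-th power at level `M / r`. -/
theorem descend (hU : Stmt_KumU) (hL : Stmt_ULevel) (hFU : Stmt_FU_mul)
    (M : ℕ) [NeZero M] (r : Nat.Primes) [NeZero (r : ℕ)] [NeZero (M / (r : ℕ))]
    (hr2 : (r : ℕ) ^ 2 ∣ M) (ζ : Qbarˣ)
    (hζ : IsPrimitiveRoot ζ (r : ℕ)) (m : ℕ) [NeZero m] (u : FF M)
    (χ : Additive (Gamma0 M) →+ ZMod m) (hu : Kum M m u χ) (hτ : tau M r (ZMod m) χ = 0) :
    ∃ g : FF (M / (r : ℕ)), (g : LaurentSeries Qbar) ^ m = formalU (r : ℕ) ζ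
      ((u ^ IntermediateField.relfinrank (ModularCurve.modularFunctionFieldBar (M / (r : ℕ)))
        (ModularCurve.modularFunctionFieldBar M) : FF M) : LaurentSeries Qbar) := by
  have hrM : (r : ℕ) ∣ M := dvd_trans (dvd_pow_self _ two_ne_zero) hr2
  obtain ⟨v, hv1, hv2⟩ := hU M r hrM ζ hζ m u χ hu
  rw [hτ] at hv2
  obtain ⟨g, hg⟩ := ALL.kumKer M m v hv2
  have hmem := hL M r r.2 hr2 ζ hζ u
  have hle : ModularCurve.modularFunctionFieldBar (M / (r : ℕ)) ≤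
      ModularCurve.modularFunctionFieldBar M :=
    Fermat.Agent.INJ.Inst.Descent.bar_le (Nat.div_dvd_of_dvd hrM)
  obtain ⟨g', hg'⟩ := Fermat.Agent.INJ.Inst.Descent.exists_pow_eq_pow_relfinrank hle m
    ⟨_, hmem⟩ g (by
      have := congrArg (Subtype.val) hg
      exact this.trans hv1)
  refine ⟨g', ?_⟩
  have h3 := congrArg (Subtype.val) hg'
  have h4 : ((u ^ IntermediateField.relfinrank (ModularCurve.modularFunctionFieldBar (M / (r : ℕ)))
        (ModularCurve.modularFunctionFieldBar M) : FF M) : LaurentSeries Qbar)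
      = (u : LaurentSeries Qbar) ^ IntermediateField.relfinrank
        (ModularCurve.modularFunctionFieldBar (M / (r : ℕ)))
        (ModularCurve.modularFunctionFieldBar M) := rfl
  rw [h4, formalU_pow hFU _ _ hζ]
  exact h3

end GlueZ

open GlueZ in
theorem z_of_zf (hU : Stmt_KumU) (hL : Stmt_ULevel) (hW : Stmt_KumW) (hFU : Stmt_FU_mul)
    (h : Stmt_ZFall) : Stmt_Z := by
  intro M _ r hfac
  have : NeZero (r : ℕ) := ⟨r.2.ne_zero⟩
  have hr2 : (r : ℕ) ^ 2 ∣ M := by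
    rw [← hfac]; exact Nat.ordProj_dvd M r
  have hrM : (r : ℕ) ∣ M := dvd_trans (dvd_pow_self _ two_ne_zero) hr2
  have : NeZero (M / (r : ℕ)) := ⟨by
    intro h0
    rw [Nat.div_eq_zero_iff] at h0
    rcases h0 with h0 | h0
    · exact r.2.ne_zero h0
    · exact absurd (Nat.le_of_dvd (Nat.pos_of_ne_zero (NeZero.ne M)) hrM) (not_le.2 h0)⟩
  obtain ⟨c₀, hc₀, hZ⟩ := h M r r.2 hfac
  set d := IntermediateField.relfinrank (ModularCurve.modularFunctionFieldBar (M / (r : ℕ)))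
        (ModularCurve.modularFunctionFieldBar M) with hd
  have hd0 : d ≠ 0 := by
    intro h0
    have h1 := Fermat.Agent.INJ.Inst.Descent.psi_mul_relfinrank (Nat.div_dvd_of_dvd hrM)
    rw [← hd, h0, mul_zero] at h1
    exact (Fermat.Agent.INJ.Inst.Descent.psi_pos M).ne h1
  obtain ⟨ζ, hζ⟩ := exists_primRoot_units (r : ℕ)
  refine ⟨d * c₀, mul_ne_zero hd0 hc₀, ?_⟩
  intro A hA m _ hrm χ hχ hI hτ hτW
  obtain ⟨u, hu⟩ := ALL.kumSurj M m χ hχ
  have hdu : IsDiv M m u := ALL.divOfKum M m u χ hu hχ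
  -- inertia
  have hin : ∀ σ ∈ A.inertiaSubgroupIn ℚ, ∃ g : FF M, g ^ m = gal M σ u * u⁻¹ := by
    intro σ hσ
    obtain ⟨u₁, h1, h2⟩ := hI σ hσ
    have hdu₁ : IsDiv M m u₁ := ALL.divOfKum M m u₁ χ h1 hχ
    have h4 : Kum M m (u * u₁⁻¹) 0 := by
      have := kumMul M m _ _ _ _ hu (kumInv M m _ _ h1)
      rwa [add_neg_cancel] at this
    obtain ⟨f, hf⟩ := ALL.kumKer M m _ h4
    have hf0 : f ≠ 0 := by
      rintro rfl
      rw [zero_pow (NeZero.ne m)] at hf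
      exact (mul_ne_zero hdu.1 (inv_ne_zero hdu₁.1)) hf.symm
    have h5 : gal M σ u = gal M σ u₁ * (gal M σ f) ^ m := by
      rw [← map_pow, ← map_mul, hf, mul_comm u, mul_inv_cancel_left₀ hdu₁.1]
    have h6 : Kum M m (gal M σ u) χ := by
      rw [h5]
      have := kumMul M m _ _ _ _ h2 (kumPow M m _ (GLUE.gal_ne_zero M σ hf0))
      rwa [add_zero] at this
    have h7 : Kum M m (gal M σ u * u⁻¹) 0 := by
      have := kumMul M m _ _ _ _ h6 (kumInv M m _ _ hu)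
      rwa [add_neg_cancel] at this
    exact ALL.kumKer M m _ h7
  have hin' : ∀ σ ∈ A.inertiaSubgroupIn ℚ, ∃ g : FF M, g ^ m = gal M σ (u ^ d) * (u ^ d)⁻¹ := by
    intro σ hσ
    obtain ⟨g, hg⟩ := hin σ hσ
    exact ⟨g ^ d, by rw [← pow_mul, mul_comm d m, pow_mul, hg, mul_pow, map_pow, inv_pow]⟩
  have hUu := descend hU hL hFU M r hr2 ζ hζ m u χ hu hτ
  have hUW := descend hU hL hFU M r hr2 ζ hζ m (frickeEquiv M u) (Wchar M χ) (hW M m u χ hu) hτW
  rw [← map_pow] at hUW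
  obtain ⟨g, hg⟩ := hZ A hA ζ hζ m (Nat.pos_of_ne_zero (NeZero.ne m)) hrm (u ^ d)
    (isDiv_pow hdu d) hin' hUu hUW
  have h8 : Kum M m (u ^ (d * c₀)) 0 := by
    apply GLUE.kum_zero_of_pow kumPow (pow_ne_zero _ hdu.1) (g := g)
    rw [hg, pow_mul]
  have h9 : Kum M m (u ^ (d * c₀)) ((d * c₀) • χ) := GLUE.kum_pow kumMul kumPow hu _
  exact kumUnique M m _ _ _ h9 h8

end Fermat.Agent.S36.Dict
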