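import Fermat.Agent.S36.Dict.Interface
import Fermat.Agent.ES.Mid.HGlue
import Fermat.Agent.ES.Mid.HA1
import Fermat.Agent.ES.Mid.InvRat

/-!
# S36 / Dict / KumU : the multiplicative `U_r` on `F_N` corresponds to `tau N r` on characters.
(copy of ES/Mid/HGlue with `funN -> funU`, `formalN -> formalU`, `dataT -> dataU`.)   helper83
-/

set_option autoImplicit false

namespace Fermat.Agent.S36.Dict

open UpperHalfPlane CongruenceSubgroup AlgebraicCurve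
open scoped MatrixGroups Manifold
open Fermat.Agent.S24 (Qbar FF funAlg iota)
open Fermat.Agent.S24.QX (qExpHom cmI qExpFun)
open Fermat.Agent.ES.Mid
open Fermat.Agent.S16.HH (HeckeData dataU jG)
attribute [local instance] Fermat.Agent.S24.algQbarComplex

namespace KumU

/-! ### `funU` is multiplicative -/

theorem funU_one_apply (r : ℕ) [NeZero r] (z : ℍ) : funU r (fun _ => 1) z = 1 := by
  simp [funU]

theorem funU_rel (r : ℕ) [NeZero r] {m : ℕ} {a b t₁ t₂ : ℍ → ℂ}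
    (h : ∀ z, a z ^ m * t₂ z = b z ^ m * t₁ z) (z : ℍ) :
    funU r a z ^ m * funU r t₂ z = funU r b z ^ m * funU r t₁ z := by
  simp only [funU]
  rw [← Finset.prod_pow, ← Finset.prod_pow, ← Finset.prod_mul_distrib, ← Finset.prod_mul_distrib]
  exact Finset.prod_congr rfl fun x _ => h _

theorem formalU_ne_zero (hmul : Stmt_FU_mul) {r : ℕ} [NeZero r] {ζ : Qbarˣ}
    (hζ : IsPrimitiveRoot ζ r) {x : LaurentSeries Qbar} (hx : x ≠ 0) : formalU r ζ x ≠ 0 := by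
  obtain ⟨h1, h2⟩ := hmul Qbar r ζ hζ
  intro h0
  have h3 := h2 x x⁻¹
  rw [mul_inv_cancel₀ hx, h1, h0, zero_mul] at h3
  exact one_ne_zero h3

/-! ### the character relation -/

theorem tau_eq (N : ℕ) (r : Nat.Primes) (h : (r : ℕ) ∣ N) (A : Type*) [AddCommGroup A]
    (χ : Additive (Gamma0 N) →+ A) : tau N r A χ = (dataU N h).op χ := by
  show Fermat.Agent.S16.HH.tau N r A χ = _
  unfold Fermat.Agent.S16.HH.tau
  rw [dif_pos h]
  rfl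

theorem funU_char (N : ℕ) (r : Nat.Primes) (hrN : (r : ℕ) ∣ N) (m : ℕ) [NeZero m]
    (a b : ℍ → ℂ) (χ : Additive (Gamma0 N) →+ ZMod m)
    (h : ∀ (γ : Gamma0 N) (z : ℍ), a ((γ : SL(2, ℤ)) • z) * b z =
      ZMod.stdAddChar (χ (Additive.ofMul γ)) * (a z * b ((γ : SL(2, ℤ)) • z)))
    (γ : Gamma0 N) (z : ℍ) :
    funU (r : ℕ) a ((γ : SL(2, ℤ)) • z) * funU (r : ℕ) b z =
      ZMod.stdAddChar (tau N r (ZMod m) χ (Additive.ofMul γ)) *
        (funU (r : ℕ) a z * funU (r : ℕ) b ((γ : SL(2, ℤ)) • z)) := by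
  have key := HA1.prod_telescope (dataU N hrN) a b
    (fun γ => (ZMod.stdAddChar (χ (Additive.ofMul γ)) : ℂ)) (fun γ z => h γ z) γ z
  rw [tau_eq N r hrN, HeckeData.op_apply, HA1.addChar_sum]
  exact key

/-! ### `formalU` of a `q`-expansion -/

theorem exists_frac (hUA : Stmt_UA) (N : ℕ) [NeZero N] (r : Nat.Primes) (hrN : (r : ℕ) ∣ N)
    (ζ : Qbarˣ) (hζ : IsPrimitiveRoot ζ (r : ℕ)) (θ : funAlg N) :
    ∃ α β : funAlg N, β ≠ 0 ∧
      (∀ z, funU (r : ℕ) (θ : ℍ → ℂ) z * (β : ℍ → ℂ) z = (α : ℍ → ℂ) z) ∧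
      formalU (r : ℕ) ζ ((qExpHom N θ : FF N) : LaurentSeries Qbar)
          * ((qExpHom N β : FF N) : LaurentSeries Qbar)
        = ((qExpHom N α : FF N) : LaurentSeries Qbar) := by
  have hθmd : MDiff (θ : ℍ → ℂ) := Fermat.Agent.S24.funAlg_mdiff θ.2
  have hinv : ∀ γ ∈ Gamma0 N, ∀ z : ℍ,
      funU (r : ℕ) (θ : ℍ → ℂ) (γ • z) = funU (r : ℕ) (θ : ℍ → ℂ) z := by
    intro γ hγ z
    have h := funU_char N r hrN 1 (θ : ℍ → ℂ) (fun _ => 1) 0 (by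
      intro γ z
      rw [Fermat.Agent.S24.funAlg_invariant θ.2 (γ : SL(2, ℤ)) γ.2 z, AddMonoidHom.zero_apply,
        AddChar.map_zero_eq_one]
      ring) ⟨γ, hγ⟩ z
    rw [funU_one_apply, funU_one_apply, map_zero, AddMonoidHom.zero_apply,
      AddChar.map_zero_eq_one, mul_one, mul_one, one_mul] at h
    exact h
  obtain ⟨hmd, -, hgr, hrep⟩ := hUA (r : ℕ) r.2 (θ : ℍ → ℂ) hθmd
  have hgrowth : Growth (funU (r : ℕ) (θ : ℍ → ℂ)) :=
    hgr (fun g => Fermat.Agent.S24.funAlg_growth θ.2 g)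
  obtain ⟨θ₁, θ₂, h2, hfun, hser⟩ := INV.invRat N (funU (r : ℕ) (θ : ℍ → ℂ))
    (formalU (r : ℕ) ζ (qExpFun N θ)) hmd hinv hgrowth
    (hrep ζ _ hζ (Fermat.Agent.S24.QX.qExpFun_rep N θ))
  exact ⟨θ₁, θ₂, h2, hfun, hser⟩

theorem formalU_qExp_mem (hUA : Stmt_UA) (N : ℕ) [NeZero N] (r : Nat.Primes)
    (hrN : (r : ℕ) ∣ N) (ζ : Qbarˣ) (hζ : IsPrimitiveRoot ζ (r : ℕ)) (θ : funAlg N) :
    formalU (r : ℕ) ζ ((qExpHom N θ : FF N) : LaurentSeries Qbar)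
      ∈ ModularCurve.modularFunctionFieldBar N := by
  obtain ⟨α, β, hβ, -, hser⟩ := exists_frac hUA N r hrN ζ hζ θ
  have h0 := HG.qExpHom_ne_zero N hβ
  rw [eq_div_of_mul_eq h0 hser]
  exact div_mem (qExpHom N α).2 (qExpHom N β).2

/-- `U_r` maps `F_N` to `F_N` for `r ∣ N`. -/
theorem formalU_mem (hUA : Stmt_UA) (hmul : Stmt_FU_mul) (N : ℕ) [NeZero N] (r : Nat.Primes)
    (hrN : (r : ℕ) ∣ N) (ζ : Qbarˣ) (hζ : IsPrimitiveRoot ζ (r : ℕ)) (u : FF N) :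
    formalU (r : ℕ) ζ (u : LaurentSeries Qbar) ∈ ModularCurve.modularFunctionFieldBar N := by
  obtain ⟨a, b, hb, hab⟩ := HG.exists_quot N u
  have hab' : (u : LaurentSeries Qbar) * ((qExpHom N b : FF N) : LaurentSeries Qbar)
      = ((qExpHom N a : FF N) : LaurentSeries Qbar) := congrArg Subtype.val hab
  have h1 := (hmul Qbar (r : ℕ) ζ hζ).2 (u : LaurentSeries Qbar)
    ((qExpHom N b : FF N) : LaurentSeries Qbar)
  rw [hab'] at h1
  have h0 := formalU_ne_zero hmul hζ (HG.qExpHom_ne_zero N hb)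
  rw [eq_div_of_mul_eq h0 h1.symm]
  exact div_mem (formalU_qExp_mem hUA N r hrN ζ hζ a) (formalU_qExp_mem hUA N r hrN ζ hζ b)

end KumU

open KumU in
/-- **(KumU)** -/
theorem kumU (hUA : Stmt_UA) (hFU : Stmt_FU_mul) : Stmt_KumU := by
  intro N _ r hrN ζ hζ m _ u χ h
  refine ⟨⟨formalU (r : ℕ) ζ (u : LaurentSeries Qbar), formalU_mem hUA hFU N r hrN ζ hζ u⟩, rfl, ?_⟩
  obtain ⟨a, b, θ₁, θ₂, ha, hb, ha0, hb0, hθ₂, hu, hrel, hchi⟩ := h
  obtain ⟨α₁, β₁, hβ₁, hf₁, hs₁⟩ := exists_frac hUA N r hrN ζ hζ θ₁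
  obtain ⟨α₂, β₂, hβ₂, hf₂, hs₂⟩ := exists_frac hUA N r hrN ζ hζ θ₂
  have hα₂ : α₂ ≠ 0 := by
    rintro rfl
    rw [map_zero] at hs₂
    exact mul_ne_zero (formalU_ne_zero hFU hζ (HG.qExpHom_ne_zero N hθ₂))
      (HG.qExpHom_ne_zero N hβ₂) hs₂
  refine ⟨funU (r : ℕ) a, funU (r : ℕ) b, α₁ * β₂, α₂ * β₁, (hUA (r : ℕ) r.2 a ha).1,
    (hUA (r : ℕ) r.2 b hb).1, (hUA (r : ℕ) r.2 a ha).2.1 ha0, (hUA (r : ℕ) r.2 b hb).2.1 hb0,
    HG.funAlg_mul_ne_zero N hα₂ hβ₁, ?_, ?_, funU_char N r hrN m a b χ hchi⟩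
  · apply Subtype.ext
    have hu' : (u : LaurentSeries Qbar) * ((qExpHom N θ₂ : FF N) : LaurentSeries Qbar)
        = ((qExpHom N θ₁ : FF N) : LaurentSeries Qbar) := congrArg Subtype.val hu
    have h1 := (hFU Qbar (r : ℕ) ζ hζ).2 (u : LaurentSeries Qbar)
      ((qExpHom N θ₂ : FF N) : LaurentSeries Qbar)
    rw [hu'] at h1
    rw [map_mul, map_mul]
    show formalU (r : ℕ) ζ (u : LaurentSeries Qbar) * (((qExpHom N α₂ : FF N) : LaurentSeries Qbar)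
        * ((qExpHom N β₁ : FF N) : LaurentSeries Qbar))
      = ((qExpHom N α₁ : FF N) : LaurentSeries Qbar) * ((qExpHom N β₂ : FF N) : LaurentSeries Qbar)
    rw [← hs₁, ← hs₂, h1]
    ring
  · intro z
    have h1 := funU_rel (r : ℕ) hrel z
    show funU (r : ℕ) a z ^ m * ((α₂ : ℍ → ℂ) z * (β₁ : ℍ → ℂ) z)
      = funU (r : ℕ) b z ^ m * ((α₁ : ℍ → ℂ) z * (β₂ : ℍ → ℂ) z)
    rw [← hf₁ z, ← hf₂ z]
    linear_combination ((β₁ : ℍ → ℂ) z * (β₂ : ℍ → ℂ) z) * h1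

end Fermat.Agent.S36.Dict
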