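import Fermat.Agent.S36.Dict.Interface

/-!
# S36 / Dict, package W : the Fricke involution on `F_N` corresponds to `Wchar` on characters

* `frickeSmul : Stmt_FrickeSmul`
* `kumW : Stmt_KumW`
-/

set_option autoImplicit false

namespace Fermat.Agent.S36.Dict

open UpperHalfPlane CongruenceSubgroup AlgebraicCurve
open scoped MatrixGroups Manifold
open Fermat.Agent.S24 (Qbar FF funAlg iota)
open Fermat.Agent.S24.QX (qExpHom cmI)
open Fermat.Agent.ES.Mid
open Fermat.Agent.INJ.Inst (frickeEquiv frickeW frickeAlg frickeHom)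
attribute [local instance] Fermat.Agent.S24.algQbarComplex

theorem frickeSmul : Stmt_FrickeSmul := by
  intro N _ γ z
  have hN : 0 < N := NeZero.pos N
  have hNC : (N : ℂ) ≠ 0 := by exact_mod_cast hN.ne'
  have hz : (z : ℂ) ≠ 0 := ne_zero z
  apply UpperHalfPlane.ext
  have h0 := ne_zero ((γ : SL(2, ℤ)) • z)
  rw [INJ.Inst.fricke_coe_W hN, UpperHalfPlane.coe_specialLinearGroup_apply,
    UpperHalfPlane.coe_specialLinearGroup_apply, INJ.Inst.fricke_coe_W hN, frickeConj_coe,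
    frickeConjSL_00, frickeConjSL_10, frickeConjSL_11]
  rw [UpperHalfPlane.coe_specialLinearGroup_apply] at h0
  have hc : (N : ℂ) * ((frickeConjSL N γ 0 1 : ℤ) : ℂ) = -(((γ : SL(2, ℤ)) 1 0 : ℤ) : ℂ) := by
    exact_mod_cast congrArg (fun t : ℤ => (t : ℂ)) (frickeConjSL_01_mul N γ)
  simp only [algebraMap_int_eq, eq_intCast, Complex.ofReal_intCast, Int.cast_neg, Int.cast_mul,
    Int.cast_natCast, Complex.ofReal_neg, Complex.ofReal_mul, Complex.ofReal_natCast] at h0 ⊢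
  generalize (((γ : SL(2, ℤ)) 0 0 : ℤ) : ℂ) = a at *
  generalize (((γ : SL(2, ℤ)) 0 1 : ℤ) : ℂ) = b at *
  generalize (((γ : SL(2, ℤ)) 1 0 : ℤ) : ℂ) = c at *
  generalize (((γ : SL(2, ℤ)) 1 1 : ℤ) : ℂ) = d at *
  generalize ((frickeConjSL N γ 0 1 : ℤ) : ℂ) = c' at *
  obtain ⟨h2, h1⟩ := div_ne_zero_iff.mp h0
  have e1 : d * (-((N : ℂ) * (z : ℂ)))⁻¹ + c' = -(c * (z : ℂ) + d) / ((N : ℂ) * (z : ℂ)) := by
    field_simp
    linear_combination (z : ℂ) * hc
  have e2 : -((N : ℂ) * b) * (-((N : ℂ) * (z : ℂ)))⁻¹ + a = (a * (z : ℂ) + b) / (z : ℂ) := by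
    field_simp
    ring
  rw [e1, e2]
  field_simp

theorem KumW_mdiff {N : ℕ} (hN : 0 < N) {f : ℍ → ℂ} (hf : MDiff f) :
    MDiff (fun τ => f (frickeW N τ)) := by
  have hNC : (N : ℂ) ≠ 0 := by exact_mod_cast hN.ne'
  rw [UpperHalfPlane.mdifferentiable_iff]
  have h2 := UpperHalfPlane.mdifferentiable_iff.1 hf
  have hcoe : ∀ (w : ℂ) (hw : 0 < w.im),
      (-((N : ℂ) * w))⁻¹ = ((frickeW N ⟨w, hw⟩ : ℍ) : ℂ) := fun w hw =>
    (INJ.Inst.fricke_coe_W hN ⟨w, hw⟩).symm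
  have h3 : DifferentiableOn ℂ (fun w : ℂ => (f ∘ ofComplex) ((-((N : ℂ) * w))⁻¹))
      {z | 0 < z.im} := by
    refine h2.comp ?_ ?_
    · intro w hw
      have hw0 : w ≠ 0 := by
        rintro rfl
        exact lt_irrefl _ (show (0 : ℝ) < (0 : ℂ).im from hw)
      have : -((N : ℂ) * w) ≠ 0 := neg_ne_zero.mpr (mul_ne_zero hNC hw0)
      apply DifferentiableAt.differentiableWithinAt
      fun_prop (disch := assumption)
    · intro w hw
      show 0 < ((-((N : ℂ) * w))⁻¹).im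
      rw [hcoe w hw]
      exact (frickeW N ⟨w, hw⟩).im_pos
  refine h3.congr fun w hw => ?_
  have hw0 : 0 < w.im := hw
  simp only [Function.comp_apply, ofComplex_apply_of_im_pos hw0]
  rw [hcoe w hw0, ofComplex_apply]

theorem KumW_ne_zero {N : ℕ} (hN : 0 < N) {f : ℍ → ℂ} (hf : f ≠ 0) :
    (fun τ => f (frickeW N τ)) ≠ 0 := by
  obtain ⟨z, hz⟩ := Function.ne_iff.1 hf
  refine Function.ne_iff.2 ⟨frickeW N z, ?_⟩
  show f (frickeW N (frickeW N z)) ≠ 0
  rw [INJ.Inst.fricke_W_W hN]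
  exact hz

theorem kumW : Stmt_KumW := by
  intro N m _ _ u χ hK
  obtain ⟨a, b, θ₁, θ₂, ha, hb, ha0, hb0, hθ₂, hu, hpow, hchar⟩ := hK
  have hN : 0 < N := NeZero.pos N
  refine ⟨fun z => a (frickeW N z), fun z => b (frickeW N z), frickeAlg N θ₁, frickeAlg N θ₂,
    KumW_mdiff hN ha, KumW_mdiff hN hb, KumW_ne_zero hN ha0, KumW_ne_zero hN hb0,
    (map_ne_zero_iff _ (INJ.Inst.frickeAlg_injective N)).mpr hθ₂, ?_, ?_, ?_⟩
  · show frickeHom N u * _ = _
    rw [← INJ.Inst.frickeHom_qExpHom, ← INJ.Inst.frickeHom_qExpHom, ← map_mul, hu]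
  · intro z
    exact hpow (frickeW N z)
  · intro γ z
    show a (frickeW N ((γ : SL(2, ℤ)) • z)) * b (frickeW N z) =
      _ * (a (frickeW N z) * b (frickeW N ((γ : SL(2, ℤ)) • z)))
    rw [frickeSmul N γ z, Wchar_apply]
    exact hchar (frickeConj N γ) (frickeW N z)

end Fermat.Agent.S36.Dict
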