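import Fermat.Agent.S36.Dict.Interface
import Fermat.Agent.ES.Mid.HA1
import Fermat.Agent.ES.Mid.HA2
import Fermat.Agent.ES.Mid.HA3

/-!
# S36 / Dict / UA (helper17): analytic properties of `funU`
-/

set_option autoImplicit false

namespace Fermat.Agent.S36.Dict

open UpperHalfPlane CongruenceSubgroup ModularForm Filter Matrix.SpecialLinearGroup
open scoped MatrixGroups Manifold Topology OnePoint
open Fermat.Agent.S24 (Qbar iota)
open Fermat.Agent.S24.QX
open Fermat.Agent.ES.Mid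
open P2MW.S_ModularForm_heckeT_slash_eq_self_of_mem_Gamma0.ModularForm.HeckeSlashInvariance

namespace UA

theorem funU_eq_prod (r : ℕ) [NeZero r] (f : ℍ → ℂ) :
    funU r f = ∏ x : ZMod r, fun z : ℍ => f (heckeMatrix r x.val • z) := by
  funext z
  rw [Finset.prod_apply]
  rfl

theorem funU_eq_nrm (r : ℕ) [NeZero r] (f : ℍ → ℂ) : funU r f = HA2.nrm r f := by
  funext z
  have hr0 : r ≠ 0 := NeZero.ne r
  have hrC : (r : ℂ) ≠ 0 := by exact_mod_cast hr0
  show ∏ x : ZMod r, f (heckeMatrix r x.val • z) = _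
  rw [HA2.nrm_apply, HA2.prod_zmod_val r (fun j => f (heckeMatrix r j • z))]
  refine Finset.prod_congr rfl fun j _ => ?_
  rw [HA2.aff_apply]
  congr 1
  have e : (((1 / (r : ℝ) : ℝ) : ℂ) * (z : ℂ) + (((j : ℝ) / (r : ℝ) : ℝ) : ℂ)) =
      ((heckeMatrix r j • z : ℍ) : ℂ) := by
    rw [coe_heckeMatrix_smul hr0]
    push_cast
    field_simp
  rw [e, ofComplex_apply]

theorem twProd_indep {R : Type*} [CommRing R] [IsDomain R] (ℓ : ℕ) [NeZero ℓ] (ζ ζ' : Rˣ)
    (hζ : IsPrimitiveRoot ζ ℓ) (hζ' : IsPrimitiveRoot ζ' ℓ) (x : LaurentSeries R) :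
    twProd ℓ ζ x = twProd ℓ ζ' x := by
  have hℓ : 0 < ℓ := Nat.pos_of_ne_zero (NeZero.ne ℓ)
  have h1 : IsPrimitiveRoot (ζ : R) ℓ := IsPrimitiveRoot.coe_units_iff.2 hζ
  have h2 : (ζ' : R) ^ ℓ = 1 := by
    rw [← Units.val_pow_eq_pow_val, hζ'.pow_eq_one, Units.val_one]
  obtain ⟨a, -, ha⟩ := h1.eq_pow_of_pow_eq_one h2
  have ha' : ζ ^ a = ζ' := by
    apply Units.ext
    rw [Units.val_pow_eq_pow_val, ha]
  have hcop : a.Coprime ℓ := by
    rw [← hζ.pow_iff_coprime hℓ, ha']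
    exact hζ'
  rw [← ha', HF1.twProd_pow_coprime ℓ a hcop ζ hζ.pow_eq_one]

theorem mdiff_factor (r : ℕ) (j : ℕ) {f : ℍ → ℂ} (hf : MDiff f) :
    MDiff (fun z : ℍ => f (heckeMatrix r j • z)) :=
  hf.comp (mdifferentiable_smul (ModularForm.det_heckeMatrix_pos r j))

theorem growth_funU {r : ℕ} [NeZero r] (hr : r.Prime) {f : ℍ → ℂ} (hgr : Growth f) :
    Growth (funU r f) := by
  intro g
  have : Fact r.Prime := ⟨hr⟩
  have h1 : ∀ x : ZMod r, ∃ K : ℕ, IsBoundedAtImInfty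
      (fun τ => f (heckeMatrix r x.val • (g • τ)) * discriminant τ ^ K) := by
    intro x
    obtain ⟨g', -, hmul⟩ := heckeRep_mul (N := 1) (p := r)
      (fun h => hr.one_lt.ne' (Nat.dvd_one.mp h)) g (by simp) (x : OnePoint (ZMod r))
    obtain ⟨k, hk⟩ := hgr g'
    obtain ⟨s, hs, hsr, him⟩ := HA3.heckeRep_im hr.ne_zero (redMatrix r g • (x : OnePoint (ZMod r)))
    refine ⟨r * k, ?_⟩
    have e : ∀ τ : ℍ, heckeMatrix r x.val • (g • τ) =
        g' • (heckeRep r (redMatrix r g • (x : OnePoint (ZMod r))) • τ) := by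
      intro τ
      rw [← heckeRep_coe]
      show heckeRep r x • (mapGL ℝ g • τ) =
        mapGL ℝ g' • (heckeRep r (redMatrix r g • (x : OnePoint (ZMod r))) • τ)
      rw [← mul_smul, hmul, mul_smul]
    simp only [e]
    exact HA3.growth_comp (fun w => f (g' • w)) k hk
      (fun τ => heckeRep r (redMatrix r g • (x : OnePoint (ZMod r))) • τ) s hs r hsr him
  choose K hK using h1
  refine ⟨∑ x, K x, ?_⟩
  have h2 : IsBoundedAtImInfty (fun τ => ∏ x : ZMod r,
      (f (heckeMatrix r x.val • (g • τ)) * discriminant τ ^ K x)) := by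
    have := Asymptotics.IsBigO.finsetProd (s := Finset.univ) (fun x _ => hK x)
    refine this.congr' EventuallyEq.rfl (Eventually.of_forall fun τ => ?_)
    simp
  refine h2.congr' (Eventually.of_forall fun τ => ?_) EventuallyEq.rfl
  simp only [funU]
  rw [Finset.prod_mul_distrib, Finset.prod_pow_eq_pow_sum]

theorem rep_funU (r : ℕ) [NeZero r] (ζ : Qbarˣ) (hζ : IsPrimitiveRoot ζ r) {f : ℍ → ℂ}
    {x : LaurentSeries Qbar} (hx : Rep (cmI x) f) : Rep (cmI (formalU r ζ x)) (funU r f) := by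
  have e : cmI (formalU r ζ x) = compress r (twProd r (HA2.zetaC r) (cmI x)) := by
    have e1 : cmI (formalU r ζ x) =
        compress r (twProd r (Units.map ((iota : Qbar →+* ℂ) : Qbar →* ℂ) ζ) (cmI x)) := by
      show ModularCurve.coeffMap (iota : Qbar →+* ℂ) (compress r (twProd r ζ x)) = _
      rw [HF1.coeffMap_compress, HF1.coeffMap_twProd]
    rw [e1]
    congr 1
    refine twProd_indep r _ _ ?_ (HA2.zetaC_isPrimitiveRoot (NeZero.ne r)) _
    rw [← IsPrimitiveRoot.coe_units_iff]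
    exact (IsPrimitiveRoot.coe_units_iff.mpr hζ).map_of_injective
      (f := (iota : Qbar →+* ℂ)) (iota : Qbar →+* ℂ).injective
  rw [e, funU_eq_nrm]
  exact HA2.rep_nrm HF1.hf_expand r hx

end UA

/-- **(UA)** -/
theorem ua : Stmt_UA := by
  intro r _ hr f hf
  refine ⟨?_, fun hf0 hzero => ?_, UA.growth_funU hr, fun ζ x hζ hx => UA.rep_funU r ζ hζ hx⟩
  · rw [UA.funU_eq_prod]
    exact KF.mdiff_prod _ _ fun x _ => UA.mdiff_factor r x.val hf
  · rw [UA.funU_eq_prod] at hzero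
    obtain ⟨x, -, hx⟩ := KF.mdiff_prod_eq_zero _ _ (fun x _ => UA.mdiff_factor r x.val hf) hzero
    apply hf0
    funext w
    have := congrFun hx ((heckeMatrix r x.val)⁻¹ • w)
    simpa using this

end Fermat.Agent.S36.Dict
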