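import Fermat.Agent.S36.Dict.Interface
import Fermat.Agent.ES.Mid.HGlue
import Fermat.Agent.ES.Mid.InvRat

/-!
# S36 / Dict / ULevel : if `r ^ 2 ∣ N` then the multiplicative `U_r` maps `F_N` into `F_{N / r}`.
-/

set_option autoImplicit false

namespace Fermat.Agent.S36.Dict

open UpperHalfPlane CongruenceSubgroup AlgebraicCurve Matrix.SpecialLinearGroup
open scoped MatrixGroups Manifold
open Fermat.Agent.S24 (Qbar FF funAlg iota)
open Fermat.Agent.S24.QX (qExpHom cmI qExpFun)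
open Fermat.Agent.ES.Mid
open P2MW.S_ModularForm_heckeT_slash_eq_self_of_mem_Gamma0.ModularForm.HeckeSlashInvariance
attribute [local instance] Fermat.Agent.S24.algQbarComplex

namespace ULevel

theorem formalU_ne_zero (hmul : Stmt_FU_mul) {r : ℕ} [NeZero r] {ζ : Qbarˣ}
    (hζ : IsPrimitiveRoot ζ r) {x : LaurentSeries Qbar} (hx : x ≠ 0) : formalU r ζ x ≠ 0 := by
  obtain ⟨h1, h2⟩ := hmul Qbar r ζ hζ
  intro h0
  have h3 := h2 x x⁻¹
  rw [mul_inv_cancel₀ hx, h1, h0, zero_mul] at h3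
  exact one_ne_zero h3

/-- `𝒰 θ` is invariant under `Γ₀(N / r)` when `r ^ 2 ∣ N`. -/
theorem funU_invariant {N r : ℕ} [NeZero r] (hrN : r ^ 2 ∣ N) (f : ℍ → ℂ)
    (hf : ∀ γ ∈ Gamma0 N, ∀ z : ℍ, f (γ • z) = f z) (γ : SL(2, ℤ)) (hγ : γ ∈ Gamma0 (N / r))
    (z : ℍ) : funU r f (γ • z) = funU r f z := by
  obtain ⟨s, rfl⟩ := hrN
  have hr0 : 0 < r := Nat.pos_of_ne_zero (NeZero.ne r)
  have hdiv : r ^ 2 * s / r = r * s := by
    rw [pow_two, mul_assoc, Nat.mul_div_cancel_left _ hr0]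
  rw [hdiv] at hγ
  have hcN : ((r * s : ℕ) : ℤ) ∣ γ 1 0 :=
    (ZMod.intCast_zmod_eq_zero_iff_dvd _ _).mp (Gamma0_mem.mp hγ)
  have hc : (r : ℤ) ∣ γ 1 0 := (Int.natCast_dvd_natCast.mpr (Dvd.intro _ rfl)).trans hcN
  have hc0 : ((γ 1 0 : ℤ) : ZMod r) = 0 := (ZMod.intCast_zmod_eq_zero_iff_dvd _ _).mpr hc
  have h1 : ∀ x : ZMod r, f (ModularForm.heckeMatrix r x.val • (γ • z)) =
      f (ModularForm.heckeMatrix r (affinePerm γ hc0 x).val • z) := by
    intro x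
    obtain ⟨g', hg', hmul⟩ := heckeMatrix_mul_of_dvd γ hc x
    have hg'N : g' ∈ Gamma0 (r ^ 2 * s) := by
      rw [Gamma0_mem, hg', ZMod.intCast_zmod_eq_zero_iff_dvd]
      obtain ⟨t, ht⟩ := hcN
      rw [ht]
      push_cast
      exact ⟨t, by ring⟩
    have e : ModularForm.heckeMatrix r x.val • (γ • z) =
        g' • (ModularForm.heckeMatrix r (affinePerm γ hc0 x).val • z) := by
      show ModularForm.heckeMatrix r x.val • (mapGL ℝ γ • z) =
        mapGL ℝ g' • (ModularForm.heckeMatrix r (affinePerm γ hc0 x).val • z)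
      rw [← mul_smul, hmul, mul_smul]
    rw [e, hf g' hg'N]
  show ∏ x : ZMod r, f (ModularForm.heckeMatrix r x.val • (γ • z)) =
    ∏ x : ZMod r, f (ModularForm.heckeMatrix r x.val • z)
  rw [Finset.prod_congr rfl fun x _ => h1 x]
  exact Equiv.prod_comp (affinePerm γ hc0) (fun x => f (ModularForm.heckeMatrix r x.val • z))

theorem neZero_div {N r : ℕ} [NeZero N] (hrN : r ^ 2 ∣ N) : NeZero (N / r) := by
  refine ⟨fun h0 => ?_⟩
  obtain ⟨s, hs⟩ := hrN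
  have hN := NeZero.ne N
  have hr0 : 0 < r := by
    rcases Nat.eq_zero_or_pos r with rfl | h
    · simp at hs
      exact absurd hs hN
    · exact h
  rw [hs, pow_two, mul_assoc, Nat.mul_div_cancel_left _ hr0] at h0
  apply hN
  rw [hs, pow_two, mul_assoc, h0, mul_zero]

theorem formalU_qExp_mem (hUA : Stmt_UA) (N r : ℕ) [NeZero N] [NeZero r] (hr : r.Prime)
    (hrN : r ^ 2 ∣ N) (ζ : Qbarˣ) (hζ : IsPrimitiveRoot ζ r) (θ : funAlg N) :
    formalU r ζ ((qExpHom N θ : FF N) : LaurentSeries Qbar)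
      ∈ ModularCurve.modularFunctionFieldBar (N / r) := by
  have : NeZero (N / r) := neZero_div hrN
  have hθmd : MDiff (θ : ℍ → ℂ) := Fermat.Agent.S24.funAlg_mdiff θ.2
  have hinv : ∀ γ ∈ Gamma0 (N / r), ∀ z : ℍ,
      funU r (θ : ℍ → ℂ) (γ • z) = funU r (θ : ℍ → ℂ) z :=
    fun γ hγ z => funU_invariant hrN (θ : ℍ → ℂ)
      (fun γ hγ z => Fermat.Agent.S24.funAlg_invariant θ.2 γ hγ z) γ hγ z
  obtain ⟨hmd, -, hgr, hrep⟩ := hUA r hr (θ : ℍ → ℂ) hθmd
  have hgrowth : Growth (funU r (θ : ℍ → ℂ)) :=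
    hgr (fun g => Fermat.Agent.S24.funAlg_growth θ.2 g)
  obtain ⟨α, β, hβ, -, hser⟩ := INV.invRat (N / r) (funU r (θ : ℍ → ℂ))
    (formalU r ζ (qExpFun N θ)) hmd hinv hgrowth
    (hrep ζ _ hζ (Fermat.Agent.S24.QX.qExpFun_rep N θ))
  have h0 := HG.qExpHom_ne_zero (N / r) hβ
  have hser' : formalU r ζ ((qExpHom N θ : FF N) : LaurentSeries Qbar)
      * ((qExpHom (N / r) β : FF (N / r)) : LaurentSeries Qbar)
        = ((qExpHom (N / r) α : FF (N / r)) : LaurentSeries Qbar) := hser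
  rw [eq_div_of_mul_eq h0 hser']
  exact div_mem (qExpHom (N / r) α).2 (qExpHom (N / r) β).2

end ULevel

open ULevel in
/-- **(ULevel)** -/
theorem uLevel (hUA : Stmt_UA) (hFU : Stmt_FU_mul) : Stmt_ULevel := by
  intro N r _ _ hr hrN ζ hζ u
  obtain ⟨a, b, hb, hab⟩ := HG.exists_quot N u
  have hab' : (u : LaurentSeries Qbar) * ((qExpHom N b : FF N) : LaurentSeries Qbar)
      = ((qExpHom N a : FF N) : LaurentSeries Qbar) := congrArg Subtype.val hab
  have h1 := (hFU Qbar r ζ hζ).2 (u : LaurentSeries Qbar)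
    ((qExpHom N b : FF N) : LaurentSeries Qbar)
  rw [hab'] at h1
  have h0 := formalU_ne_zero hFU hζ (HG.qExpHom_ne_zero N hb)
  rw [eq_div_of_mul_eq h0 h1.symm]
  exact div_mem (formalU_qExp_mem hUA N r hr hrN ζ hζ a) (formalU_qExp_mem hUA N r hr hrN ζ hζ b)

end Fermat.Agent.S36.Dict
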