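import Fermat.Agent.S36.Dict.Interface

/-!
# S36 / Dict, package WAlg (helper53): algebra of the Fricke involution
`Stmt_FrickeGal`, `Stmt_FrickeRaise`, `Stmt_ExpandMem`.
-/

set_option autoImplicit false

namespace Fermat.Agent.S36.Dict

open UpperHalfPlane CongruenceSubgroup AlgebraicCurve ModularCurve
open scoped MatrixGroups Manifold
open Fermat.Agent
open Fermat.Agent.S24 (Qbar FF funAlg iota jBar jBarSeries jAlg)
open Fermat.Agent.S24.QX (qExpHom cmI)
open Fermat.Agent.ES.Mid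
open Fermat.Agent.INJ.Inst (frickeEquiv frickeW frickeHom)
attribute [local instance] Fermat.Agent.S24.algQbarComplex

/-- two `ℚ̄`-algebra homomorphisms of `F_N` which agree on the `j_d` are equal. -/
theorem WA_algHom_ext (N : ℕ) [NeZero N] {L : Type*} [Field L] [Algebra Qbar L]
    (φ φ' : FF N →ₐ[Qbar] L)
    (h : ∀ (d : ℕ) [NeZero d] (hd : d ∣ N), φ (jBar N d hd) = φ' (jBar N d hd)) : φ = φ' := by
  refine S24.algHom_ext_of_frac (qExpHom N) (S24.QX.qExpHom_injective N)
    (INJ.Inst.fricke_frac N) φ φ' ?_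
  have h1 : φ.comp (qExpHom N) = φ'.comp (qExpHom N) := by
    apply AlgHom.adjoin_ext
    rintro x ⟨d, hd, rfl⟩
    have : NeZero d :=
      ⟨fun h0 => NeZero.ne N (by rw [h0] at hd; exact Nat.eq_zero_of_zero_dvd hd)⟩
    show φ (qExpHom N (jAlg N d hd)) = φ' (qExpHom N (jAlg N d hd))
    rw [S24.QX.qExpHom_jAlg]
    exact h d hd
  exact fun a => DFunLike.congr_fun h1 a

theorem WA_coe_jBar (N d : ℕ) [NeZero d] (hd : d ∣ N) :
    ((jBar N d hd : FF N) : LaurentSeries Qbar) = S28.jd Qbar d :=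
  INJ.Inst.fricke_coe_jBar N d hd

theorem WA_jBarSeries (d : ℕ) [NeZero d] : jBarSeries d = S28.jd Qbar d :=
  INJ.Inst.fricke_coe_jBar d d dvd_rfl

/-- `W j_d = j_{N/d}`, on series. -/
theorem WA_fricke_jBar (N : ℕ) [NeZero N] (d : ℕ) [NeZero d] (hd : d ∣ N) :
    ((frickeEquiv N (jBar N d hd) : FF N) : LaurentSeries Qbar) = S28.jd Qbar (N / d) := by
  have he0 : NeZero (N / d) := ⟨INJ.Inst.div_ne_zero_of_dvd (NeZero.ne N) hd⟩
  have h1 : frickeEquiv N (jBar N d hd) = jBar N (N / d) (Nat.div_dvd_of_dvd hd) := by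
    show frickeHom N (jBar N d hd) = _
    rw [← S24.QX.qExpHom_jAlg, INJ.Inst.frickeHom_qExpHom, INJ.Inst.frickeAlg_jAlg,
      S24.QX.qExpHom_jAlg]
  rw [h1, WA_coe_jBar]

theorem WA_qExpand_jd (e d : ℕ) [NeZero e] (hd : d ≠ 0) :
    qExpand Qbar e (S28.jd Qbar d) = S28.jd Qbar (e * d) := by
  rw [S28.jd, S28.jd, ← S28.Vq_eq, S28.tower_Vq_Vq Qbar (NeZero.ne e) hd]

/-- `gal` fixes the `j_d`. -/
theorem WA_gal_jBar (N : ℕ) (σ : GQ) (d : ℕ) [NeZero d] (hd : d ∣ N) :
    gal N σ (jBar N d hd) = jBar N d hd := by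
  apply Subtype.ext
  rw [coe_gal, WA_coe_jBar, INJ.Inst.coeffMap_jd]

theorem WA_gal_algebraMap (N : ℕ) (σ : GQ) (c : Qbar) :
    gal N σ (algebraMap Qbar (FF N) c) = algebraMap Qbar (FF N) (σ c) :=
  ModularCurve.arithmeticRingAut_algebraMap (ModularCurve.modularFunctionFieldFull N) σ c

/-- **(WGal)** -/
theorem frickeGal : Stmt_FrickeGal := by
  intro N _ σ u
  let ψ : FF N →ₐ[Qbar] FF N :=
    { toRingHom := ((gal N σ).symm.toRingHom.comp (frickeEquiv N).toAlgHom.toRingHom).comp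
        (gal N σ).toRingHom
      commutes' := fun c => by
        show (gal N σ).symm (frickeEquiv N (gal N σ (algebraMap Qbar (FF N) c))) = _
        rw [WA_gal_algebraMap, AlgEquiv.commutes, ← WA_gal_algebraMap, RingEquiv.symm_apply_apply] }
  have hψ : ∀ x, ψ x = (gal N σ).symm (frickeEquiv N (gal N σ x)) := fun _ => rfl
  have h1 : ψ = (frickeEquiv N).toAlgHom := by
    apply WA_algHom_ext
    intro d _ hd
    have he0 : NeZero (N / d) := ⟨INJ.Inst.div_ne_zero_of_dvd (NeZero.ne N) hd⟩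
    have h2 : frickeEquiv N (jBar N d hd) = jBar N (N / d) (Nat.div_dvd_of_dvd hd) :=
      Subtype.ext (by rw [WA_fricke_jBar, WA_coe_jBar])
    show ψ (jBar N d hd) = frickeEquiv N (jBar N d hd)
    rw [hψ, WA_gal_jBar, h2, RingEquiv.symm_apply_eq, WA_gal_jBar]
  have h3 : ψ u = frickeEquiv N u := DFunLike.congr_fun h1 u
  rw [hψ, RingEquiv.symm_apply_eq] at h3
  exact h3

/-- **(VMem)** -/
theorem expandMem : Stmt_ExpandMem := by
  intro N e _ _ x hx
  have hx' := S24.QX.modularFunctionFieldBar_le N hx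
  clear hx
  induction hx' using IntermediateField.adjoin_induction with
  | mem x hx =>
    obtain ⟨d, hd0, hd, rfl⟩ := hx
    have hed : NeZero (e * d) := ⟨mul_ne_zero (NeZero.ne e) (NeZero.ne d)⟩
    rw [WA_jBarSeries, WA_qExpand_jd e d (NeZero.ne d), ← WA_jBarSeries]
    exact S24.jBarSeries_mem (by rw [mul_comm]; exact Nat.mul_dvd_mul_right hd e)
  | algebraMap c =>
    have : qExpand Qbar e (algebraMap Qbar (LaurentSeries Qbar) c)
        = algebraMap Qbar (LaurentSeries Qbar) c := (qExpandAlgHomC Qbar e).commutes c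
    rw [this]
    exact IntermediateField.algebraMap_mem _ _
  | add x y _ _ hx hy => rw [map_add]; exact add_mem hx hy
  | inv x _ hx => rw [map_inv₀]; exact inv_mem hx
  | mul x y _ _ hx hy => rw [map_mul]; exact mul_mem hx hy

theorem WA_le (N e : ℕ) : modularFunctionFieldBar N ≤ modularFunctionFieldBar (N * e) := by
  refine (S24.QX.modularFunctionFieldBar_le N).trans ?_
  rw [IntermediateField.adjoin_le_iff]
  rintro x ⟨d, hd0, hd, rfl⟩
  exact S24.jBarSeries_mem (hd.trans (dvd_mul_right N e))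

/-- **(WRaise)** -/
theorem frickeRaise : Stmt_FrickeRaise := by
  intro N e _ _ _ u u' huu'
  let incl : FF N →ₐ[Qbar] FF (N * e) := IntermediateField.inclusion (WA_le N e)
  let φ₁ : FF N →ₐ[Qbar] LaurentSeries Qbar :=
    (modularFunctionFieldBar (N * e)).val.comp ((frickeEquiv (N * e)).toAlgHom.comp incl)
  let φ₂ : FF N →ₐ[Qbar] LaurentSeries Qbar :=
    (qExpandAlgHomC Qbar e).comp ((modularFunctionFieldBar N).val.comp (frickeEquiv N).toAlgHom)
  have h1 : φ₁ = φ₂ := by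
    apply WA_algHom_ext
    intro d _ hd
    have h2 : incl (jBar N d hd) = jBar (N * e) d (hd.trans (dvd_mul_right N e)) :=
      Subtype.ext rfl
    show ((frickeEquiv (N * e) (incl (jBar N d hd)) : FF (N * e)) : LaurentSeries Qbar)
      = qExpand Qbar e ((frickeEquiv N (jBar N d hd) : FF N) : LaurentSeries Qbar)
    rw [h2, WA_fricke_jBar, WA_fricke_jBar,
      WA_qExpand_jd e _ (INJ.Inst.div_ne_zero_of_dvd (NeZero.ne N) hd)]
    congr 1
    obtain ⟨c, rfl⟩ := hd
    have hd0 : 0 < d := NeZero.pos d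
    rw [mul_assoc, Nat.mul_div_cancel_left _ hd0, Nat.mul_div_cancel_left _ hd0, mul_comm]
  have h0 : ((incl u : FF (N * e)) : LaurentSeries Qbar) = (u : LaurentSeries Qbar) :=
    IntermediateField.coe_inclusion (WA_le N e) u
  have h3 : u' = incl u := Subtype.ext (huu'.trans h0.symm)
  rw [h3]
  exact DFunLike.congr_fun h1 u

end Fermat.Agent.S36.Dict
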