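import Fermat.Agent.S36.Dict.FU
import Fermat.Agent.S36.Dict.UA
import Fermat.Agent.S36.Dict.KumU
import Fermat.Agent.S36.Dict.ULevel
import Fermat.Agent.S36.Dict.KumW
import Fermat.Agent.S36.Dict.WAlg
import Fermat.Agent.S36.Dict.AuxLevel
import Fermat.Agent.S36.Dict.Glue

/-!
# S36 / Dict : the dictionary, unconditional.
`(Z_F)` (function fields, levels divisible by the auxiliary level) `⟹ (Z)` (characters).
-/

set_option autoImplicit false

namespace Fermat.Agent.S36.Dict

theorem all_KumU : Stmt_KumU := kumU ua fu_mul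

theorem all_ULevel : Stmt_ULevel := uLevel ua fu_mul

theorem all_Aux : Stmt_Aux := aux fu_expand frickeRaise expandMem

/-- **The dictionary.** -/
theorem z_of_ZF (h : Stmt_ZF) : Stmt_Z :=
  z_of_zf all_KumU all_ULevel kumW fu_mul (zfAll all_Aux h)

end Fermat.Agent.S36.Dict
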