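import Fermat.Agent.ES.Mid.HeckeDefs
import Fermat.Agent.INJ.Inst.Fricke

/-!
# S36 / Dict : definitions (architect: helper5)

* `formalU r ζ x = ∏_{j mod r} x(ζ^j q^{1/r})` : the formal multiplicative `U_r`;
* `frickeConj N` : conjugation by the Fricke matrix on `Γ₀(N)`,
  `(a b; c d) ↦ (d, -c/N; -N b, a)`;
* `Wchar N χ = χ ∘ frickeConj N` : the Fricke involution on characters.
-/

set_option autoImplicit false

namespace Fermat.Agent.S36.Dict

open UpperHalfPlane CongruenceSubgroup AlgebraicCurve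
open scoped MatrixGroups
open Fermat.Agent.S24 (Qbar FF funAlg)
open Fermat.Agent.ES.Mid

/-- The formal multiplicative operator `U_r`: `x ↦ ∏_{j < r} x(ζ^j q^{1/r})`. -/
noncomputable def formalU {R : Type*} [CommRing R] (r : ℕ) [NeZero r] (ζ : Rˣ)
    (x : LaurentSeries R) : LaurentSeries R :=
  compress r (twProd r ζ x)

theorem gamma0_dvd {N : ℕ} (γ : Gamma0 N) : (N : ℤ) ∣ (γ : SL(2, ℤ)) 1 0 :=
  (ZMod.intCast_zmod_eq_zero_iff_dvd _ _).mp (Gamma0_mem.mp γ.2)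

/-- The matrix `(d, -c/N; -N b, a)`. -/
def frickeConjSL (N : ℕ) (γ : Gamma0 N) : SL(2, ℤ) :=
  ⟨!![(γ : SL(2, ℤ)) 1 1, -((γ : SL(2, ℤ)) 1 0 / N); -(N * (γ : SL(2, ℤ)) 0 1),
      (γ : SL(2, ℤ)) 0 0], by
    have h := Matrix.det_fin_two ((γ : SL(2, ℤ)) : Matrix (Fin 2) (Fin 2) ℤ)
    rw [(γ : SL(2, ℤ)).2] at h
    obtain ⟨c, hc⟩ := gamma0_dvd γ
    rw [Matrix.det_fin_two_of]
    rcases Nat.eq_zero_or_pos N with rfl | hN
    · simp only [Nat.cast_zero, zero_mul] at hc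
      simp only [Nat.cast_zero, zero_mul, neg_zero, mul_zero, sub_zero]
      rw [hc] at h
      linarith
    · have hN' : (N : ℤ) ≠ 0 := by exact_mod_cast hN.ne'
      rw [hc, Int.mul_ediv_cancel_left _ hN']
      rw [hc] at h
      linarith⟩

theorem frickeConjSL_00 (N : ℕ) (γ : Gamma0 N) : frickeConjSL N γ 0 0 = (γ : SL(2, ℤ)) 1 1 := rfl
theorem frickeConjSL_01 (N : ℕ) (γ : Gamma0 N) :
    frickeConjSL N γ 0 1 = -((γ : SL(2, ℤ)) 1 0 / N) := rfl
theorem frickeConjSL_10 (N : ℕ) (γ : Gamma0 N) :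
    frickeConjSL N γ 1 0 = -(N * (γ : SL(2, ℤ)) 0 1) := rfl
theorem frickeConjSL_11 (N : ℕ) (γ : Gamma0 N) : frickeConjSL N γ 1 1 = (γ : SL(2, ℤ)) 0 0 := rfl

theorem frickeConjSL_01_mul (N : ℕ) (γ : Gamma0 N) :
    (N : ℤ) * frickeConjSL N γ 0 1 = -(γ : SL(2, ℤ)) 1 0 := by
  rw [frickeConjSL_01, mul_neg, Int.mul_ediv_cancel' (gamma0_dvd γ)]

theorem frickeConjSL_mem (N : ℕ) (γ : Gamma0 N) : frickeConjSL N γ ∈ Gamma0 N := by
  rw [Gamma0_mem, frickeConjSL_10]
  simp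

/-- Conjugation by the Fricke matrix, as an endomorphism of `Γ₀(N)`. -/
def frickeConj (N : ℕ) [NeZero N] : Gamma0 N →* Gamma0 N where
  toFun γ := ⟨frickeConjSL N γ, frickeConjSL_mem N γ⟩
  map_one' := by
    apply Subtype.ext
    ext i j
    fin_cases i <;> fin_cases j <;> simp [frickeConjSL]
  map_mul' γ δ := by
    have hN : (N : ℤ) ≠ 0 := by exact_mod_cast NeZero.ne N
    apply Subtype.ext
    ext i j
    have e : ∀ a b : Fin 2, ((γ * δ : Gamma0 N) : SL(2, ℤ)) a b =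
        (γ : SL(2, ℤ)) a 0 * (δ : SL(2, ℤ)) 0 b + (γ : SL(2, ℤ)) a 1 * (δ : SL(2, ℤ)) 1 b := by
      intro a b
      simp [Matrix.mul_apply, Fin.sum_univ_two]
    have e' : ∀ a b : Fin 2, (frickeConjSL N γ * frickeConjSL N δ) a b =
        frickeConjSL N γ a 0 * frickeConjSL N δ 0 b + frickeConjSL N γ a 1 * frickeConjSL N δ 1 b := by
      intro a b
      simp [Matrix.mul_apply, Fin.sum_univ_two]
    have h1 := frickeConjSL_01_mul N γ
    have h2 := frickeConjSL_01_mul N δ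
    have h3 := frickeConjSL_01_mul N (γ * δ)
    show frickeConjSL N (γ * δ) i j = (frickeConjSL N γ * frickeConjSL N δ) i j
    rw [e']
    have k00 : frickeConjSL N (γ * δ) 0 0 = frickeConjSL N γ 0 0 * frickeConjSL N δ 0 0 +
        frickeConjSL N γ 0 1 * frickeConjSL N δ 1 0 := by
      rw [frickeConjSL_00, e, frickeConjSL_00, frickeConjSL_00, frickeConjSL_10]
      linear_combination ((δ : SL(2, ℤ)) 0 1) * h1
    have k01 : frickeConjSL N (γ * δ) 0 1 = frickeConjSL N γ 0 0 * frickeConjSL N δ 0 1 +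
        frickeConjSL N γ 0 1 * frickeConjSL N δ 1 1 := by
      apply mul_left_cancel₀ hN
      rw [h3, e, frickeConjSL_00, frickeConjSL_11]
      linear_combination (-(γ : SL(2, ℤ)) 1 1) * h2 - ((δ : SL(2, ℤ)) 0 0) * h1
    have k10 : frickeConjSL N (γ * δ) 1 0 = frickeConjSL N γ 1 0 * frickeConjSL N δ 0 0 +
        frickeConjSL N γ 1 1 * frickeConjSL N δ 1 0 := by
      rw [frickeConjSL_10, e, frickeConjSL_10, frickeConjSL_00, frickeConjSL_11, frickeConjSL_10]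
      ring
    have k11 : frickeConjSL N (γ * δ) 1 1 = frickeConjSL N γ 1 0 * frickeConjSL N δ 0 1 +
        frickeConjSL N γ 1 1 * frickeConjSL N δ 1 1 := by
      rw [frickeConjSL_11, e, frickeConjSL_10, frickeConjSL_11, frickeConjSL_11]
      linear_combination ((γ : SL(2, ℤ)) 0 1) * h2
    fin_cases i <;> fin_cases j
    · exact k00
    · exact k01
    · exact k10
    · exact k11

theorem frickeConj_coe (N : ℕ) [NeZero N] (γ : Gamma0 N) :
    ((frickeConj N γ : Gamma0 N) : SL(2, ℤ)) = frickeConjSL N γ := rfl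

theorem frickeConj_frickeConj (N : ℕ) [NeZero N] (γ : Gamma0 N) :
    frickeConj N (frickeConj N γ) = γ := by
  have hN : (N : ℤ) ≠ 0 := by exact_mod_cast NeZero.ne N
  apply Subtype.ext
  ext i j
  show frickeConjSL N (frickeConj N γ) i j = (γ : SL(2, ℤ)) i j
  have k00 : frickeConjSL N (frickeConj N γ) 0 0 = (γ : SL(2, ℤ)) 0 0 := by
    rw [frickeConjSL_00, frickeConj_coe, frickeConjSL_11]
  have k01 : frickeConjSL N (frickeConj N γ) 0 1 = (γ : SL(2, ℤ)) 0 1 := by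
    apply mul_left_cancel₀ hN
    rw [frickeConjSL_01_mul, frickeConj_coe, frickeConjSL_10, neg_neg]
  have k10 : frickeConjSL N (frickeConj N γ) 1 0 = (γ : SL(2, ℤ)) 1 0 := by
    rw [frickeConjSL_10, frickeConj_coe, frickeConjSL_01_mul, neg_neg]
  have k11 : frickeConjSL N (frickeConj N γ) 1 1 = (γ : SL(2, ℤ)) 1 1 := by
    rw [frickeConjSL_11, frickeConj_coe, frickeConjSL_00]
  fin_cases i <;> fin_cases j
  · exact k00
  · exact k01
  · exact k10
  · exact k11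

/-- The Fricke involution on characters of `Γ₀(N)`. -/
noncomputable def Wchar (N : ℕ) [NeZero N] {A : Type*} [AddCommGroup A]
    (χ : Additive (Gamma0 N) →+ A) : Additive (Gamma0 N) →+ A :=
  χ.comp (MonoidHom.toAdditive (frickeConj N))

theorem Wchar_apply (N : ℕ) [NeZero N] {A : Type*} [AddCommGroup A]
    (χ : Additive (Gamma0 N) →+ A) (γ : Gamma0 N) :
    Wchar N χ (Additive.ofMul γ) = χ (Additive.ofMul (frickeConj N γ)) := rfl

theorem Wchar_Wchar (N : ℕ) [NeZero N] {A : Type*} [AddCommGroup A]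
    (χ : Additive (Gamma0 N) →+ A) : Wchar N (Wchar N χ) = χ := by
  refine AddMonoidHom.ext fun γ' => ?_
  obtain ⟨γ, rfl⟩ : ∃ γ, Additive.ofMul γ = γ' := ⟨_, rfl⟩
  rw [Wchar_apply, Wchar_apply, frickeConj_frickeConj]

theorem Wchar_add (N : ℕ) [NeZero N] {A : Type*} [AddCommGroup A]
    (χ ψ : Additive (Gamma0 N) →+ A) : Wchar N (χ + ψ) = Wchar N χ + Wchar N ψ := rfl

theorem Wchar_zero (N : ℕ) [NeZero N] {A : Type*} [AddCommGroup A] :
    Wchar N (0 : Additive (Gamma0 N) →+ A) = 0 := rfl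

theorem Wchar_nsmul (N : ℕ) [NeZero N] {A : Type*} [AddCommGroup A] (n : ℕ)
    (χ : Additive (Gamma0 N) →+ A) : Wchar N (n • χ) = n • Wchar N χ := rfl

theorem comp_Wchar (N : ℕ) [NeZero N] {A B : Type*} [AddCommGroup A] [AddCommGroup B]
    (f : A →+ B) (χ : Additive (Gamma0 N) →+ A) : f.comp (Wchar N χ) = Wchar N (f.comp χ) := rfl

/-- `Wchar` preserves `IsPE` (the trace is invariant). -/
theorem isPE_Wchar (N : ℕ) [NeZero N] {A : Type*} [AddCommGroup A]
    {χ : Additive (Gamma0 N) →+ A} (h : IsPE χ) : IsPE (Wchar N χ) := by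
  intro γ hγ
  rw [Wchar_apply]
  apply h
  have : ((frickeConj N γ : SL(2, ℤ)) : Matrix (Fin 2) (Fin 2) ℤ).trace
      = ((γ : SL(2, ℤ)) : Matrix (Fin 2) (Fin 2) ℤ).trace := by
    rw [Matrix.trace_fin_two, Matrix.trace_fin_two]
    show frickeConjSL N γ 0 0 + frickeConjSL N γ 1 1 = _
    rw [frickeConjSL_00, frickeConjSL_11, add_comm]
  rw [this]
  exact hγ

end Fermat.Agent.S36.Dict
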